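/-
S36lib / AL / WQBar  (helper1)

The Atkin–Lehner operator `w_Q` on the formal function field `FBar L N`, `N = M Q`, `gcd(M, Q) = 1`
(in the form `Q x - M y = 1`): the ring endomorphism fixing the constants with

  `w_Q (j(t^(d a))) = j(t^(d b))`     (`d ∣ M`, `a b = Q`).

Generalises helper9's `LSb/Val/WqBar` (`Q` prime, level syntactically `M * q`); the level is an
arbitrary `N` with a proof `N = M * Q`, so that `N = M * q * q`, `Q = q * q` is covered without casts.
-/
import Mathlib
import Fermat.Agent.S36lib.AL.WQMer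
import Fermat.Agent.LSb.Val.WqBar

set_option autoImplicit false
set_option linter.unusedSectionVars false
set_option linter.style.haveILetI false

noncomputable section

namespace Fermat.Agent.S36lib.AL

open UpperHalfPlane CongruenceSubgroup ModularCurve
open Fermat.Agent.ProgramR Fermat.Agent.ProgramR.BarField Fermat.Agent.ProgramR.LevelOne
open Fermat.Agent.LSb.Val
open scoped MatrixGroups

variable {L : Type*} [Field L] [Algebra ℚ L] (e : L →+* ℂ)

variable (N M Q : ℕ) [NeZero N] [NeZero M] [NeZero Q] (hN : N = M * Q)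
  (x y : ℤ) (h : (Q : ℤ) * x - (M : ℤ) * y = 1)

/-- `w_Q` on `Mer` maps `j(d a ·)` to `j(d b ·)` -/
theorem wMer_jdHol' (d a b : ℕ) [NeZero d] [NeZero a] [NeZero b] (hd : d ∣ M) (hQ : Q = a * b) :
    wMer M Q x y h (algebraMap Hol Mer (jdHol (d * a))) = algebraMap Hol Mer (jdHol (d * b)) := by
  have e1 : wMer M Q x y h (algebraMap Hol Mer (jdHol (d * a))) =
      algebraMap Hol Mer (Hol.comp (alW M Q x y h) (alW_det_pos M Q x y h) (jdHol (d * a))) :=
    merComp_algebraMap _ _ _
  rw [e1]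
  refine congrArg (algebraMap Hol Mer) ?_
  apply Hol.ext
  intro z
  rw [Hol.comp_apply, jdHol_apply, jdHol_apply]
  exact jScaledFun_mul_alW' M Q x y h d a b hd hQ z

/-- the divisors of `M Q` -/
theorem exists_factor_of_dvd {d' : ℕ} (hd : d' ∣ M * Q) (hd0 : d' ≠ 0) :
    ∃ d a b : ℕ, d ∣ M ∧ Q = a * b ∧ d' = d * a ∧ d ≠ 0 ∧ a ≠ 0 ∧ b ≠ 0 := by
  obtain ⟨d, a, hdM, haQ, rfl⟩ := exists_dvd_and_dvd_of_dvd_mul hd
  obtain ⟨b, hb⟩ := haQ
  refine ⟨d, a, b, hdM, hb, rfl, ?_, ?_, ?_⟩
  · rintro rfl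
    exact hd0 (zero_mul a)
  · rintro rfl
    exact hd0 (mul_zero d)
  · rintro rfl
    exact NeZero.ne Q (by rw [hb, mul_zero])

include hN in
theorem wMer_toMer_mem' (f : FBar L N) :
    wMer M Q x y h (toMer N e f) ∈ (toMer N e).fieldRange := by
  let S : Subfield (FBar L N) :=
    (toMer N e).fieldRange.comap ((wMer M Q x y h).comp (toMer N e))
  have hS : S = ⊤ := by
    apply subfield_eq_top
    · intro a
      show wMer M Q x y h (toMer N e (algebraMap L _ a)) ∈ (toMer N e).fieldRange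
      rw [toMer_algebraMap, wMer_const, ← toMer_algebraMap N e a]
      exact RingHom.mem_fieldRange.mpr ⟨_, rfl⟩
    · intro d' _ hd'
      show wMer M Q x y h (toMer N e (jdBar (L := L) N d' hd')) ∈ (toMer N e).fieldRange
      rw [toMer_jdBar]
      obtain ⟨d, a, b, hdM, hQ, rfl, hd0, ha0, hb0⟩ :=
        exists_factor_of_dvd M Q (hN ▸ hd') (NeZero.ne d')
      haveI : NeZero d := ⟨hd0⟩
      haveI : NeZero a := ⟨ha0⟩
      haveI : NeZero b := ⟨hb0⟩
      have hdb : d * b ∣ N := by
        rw [hN, hQ]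
        exact Nat.mul_dvd_mul hdM (Dvd.intro_left a rfl)
      rw [wMer_jdHol' M Q x y h d a b hdM hQ, ← toMer_jdBar N e (d * b) hdb]
      exact RingHom.mem_fieldRange.mpr ⟨_, rfl⟩
  have : f ∈ S := by rw [hS]; exact Subfield.mem_top f
  exact this

/-- the Atkin–Lehner operator `w_Q` on `FBar L N` as a ring homomorphism -/
def wQHom : FBar L N →+* FBar L N :=
  ((toMerEquiv N e).symm : (toMer N e).fieldRange →+* FBar L N).comp
    (((wMer M Q x y h).comp (toMer N e)).codRestrict (toMer N e).fieldRange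
      (fun f => wMer_toMer_mem' e N M Q hN x y h f))

theorem toMer_wQHom (f : FBar L N) :
    toMer N e (wQHom e N M Q hN x y h f) = wMer M Q x y h (toMer N e f) := by
  rw [← coe_toMerEquiv]
  simp only [wQHom, RingHom.coe_comp, Function.comp_apply, RingHom.coe_coe,
    RingEquiv.apply_symm_apply]
  rfl

theorem wQHom_algebraMap (a : L) :
    wQHom e N M Q hN x y h (algebraMap L _ a) = algebraMap L _ a := by
  apply toMer_injective N e
  rw [toMer_wQHom, toMer_algebraMap, wMer_const]

/-- **`w_Q (j(t^(d a))) = j(t^(d b))`**, `d ∣ M`, `a b = Q` -/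
theorem wQHom_jdBar (d a b : ℕ) [NeZero d] [NeZero a] [NeZero b] (hd : d ∣ M) (hQ : Q = a * b)
    (hda : d * a ∣ N) (hdb : d * b ∣ N) :
    wQHom e N M Q hN x y h (jdBar (L := L) N (d * a) hda) = jdBar (L := L) N (d * b) hdb := by
  apply toMer_injective N e
  rw [toMer_wQHom, toMer_jdBar, toMer_jdBar, wMer_jdHol' M Q x y h d a b hd hQ]

end Fermat.Agent.S36lib.AL
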