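/-
S36lib / AL / WQ  (helper1)

The Atkin–Lehner involution `w_Q` on `FBar N = Q̄(X₀(N))` for an exact divisor `Q ∥ N`
(`N = M Q`, `gcd(M, Q) = 1`):

* `wQ N M Q hN hcop : FBar N ≃ₐ[Q̄] FBar N`,
* `wQ_jd` : `w_Q (j(t^(d a))) = j(t^(d b))` for `d ∣ M`, `a b = Q`,
* `wQ_wQ` : involution,
* `wQ_arithmeticRingAut` : `w_Q` commutes with the coefficientwise action of `Gal(Q̄/ℚ)`,
* for `N = M q q`, `Q = q q` (`q` prime, `q ∤ M`) and helper9's `w_q` of level `M q`:
  `wQ_alpha : w_{q²} ∘ α = β ∘ w_q`, `wQ_beta : w_{q²} ∘ β = α ∘ w_q`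
  (`α, β : FBar (M q) → FBar (M q q)` the two degeneracy maps).
-/
import Mathlib
import Fermat.Agent.S36lib.AL.WQBar
import Fermat.Agent.LSb.Val.Wq

set_option autoImplicit false
set_option linter.unusedSectionVars false
set_option linter.style.haveILetI false

noncomputable section

namespace Fermat.Agent.S36lib.AL

open ModularCurve Fermat.Agent.S18lib
open Fermat.Agent.ProgramR Fermat.Agent.ProgramR.BarField
open Fermat.Agent.LSb.Val

local notation "Qb" => AlgebraicClosure ℚ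

theorem exists_bezout_of_coprime {M Q : ℕ} (hcop : Nat.Coprime M Q) :
    ∃ x y : ℤ, (Q : ℤ) * x - (M : ℤ) * y = 1 := by
  have h1 : IsCoprime (Q : ℤ) (M : ℤ) := Nat.isCoprime_iff_coprime.mpr hcop.symm
  obtain ⟨a, b, hab⟩ := h1
  exact ⟨a, -b, by linear_combination hab⟩

variable (N M Q : ℕ) [NeZero N] [NeZero M] [NeZero Q] (hN : N = M * Q) (hcop : Nat.Coprime M Q)

/-- the Atkin–Lehner operator `w_Q` as a ring homomorphism -/
def wQRingHom : FBar N →+* FBar N :=
  wQHom embQb N M Q hN (exists_bezout_of_coprime hcop).choose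
    (exists_bezout_of_coprime hcop).choose_spec.choose
    (exists_bezout_of_coprime hcop).choose_spec.choose_spec

theorem wQRingHom_algebraMap (a : Qb) :
    wQRingHom N M Q hN hcop (algebraMap Qb (FBar N) a) = algebraMap Qb (FBar N) a :=
  wQHom_algebraMap embQb N M Q hN _ _ _ a

theorem wQRingHom_jd (d a b : ℕ) [NeZero d] [NeZero a] [NeZero b] (hd : d ∣ M) (hQ : Q = a * b)
    (hda : d * a ∣ N) (hdb : d * b ∣ N) :
    wQRingHom N M Q hN hcop (jd N (d * a) hda) = jd N (d * b) hdb :=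
  wQHom_jdBar embQb N M Q hN _ _ _ d a b hd hQ hda hdb

include hN in
/-- every generator `j(t^d')`, `d' ∣ N`, is of the form `j(t^(d a))` -/
theorem exists_jd_factor (d' : ℕ) [NeZero d'] (hd' : d' ∣ N) :
    ∃ (d a b : ℕ) (_ : NeZero d) (_ : NeZero a) (_ : NeZero b) (_ : d ∣ M) (_ : Q = a * b)
      (hda : d * a ∣ N) (_ : d * b ∣ N), jd N d' hd' = jd N (d * a) hda := by
  obtain ⟨d, a, b, hdM, hQ, rfl, hd0, ha0, hb0⟩ :=
    exists_factor_of_dvd M Q (hN ▸ hd') (NeZero.ne d')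
  have hdb : d * b ∣ N := by
    rw [hN, hQ]
    exact Nat.mul_dvd_mul hdM (Dvd.intro_left a rfl)
  exact ⟨d, a, b, ⟨hd0⟩, ⟨ha0⟩, ⟨hb0⟩, hdM, hQ, hd', hdb, rfl⟩

theorem wQRingHom_wQRingHom (f : FBar N) :
    wQRingHom N M Q hN hcop (wQRingHom N M Q hN hcop f) = f := by
  have h : (wQRingHom N M Q hN hcop).comp (wQRingHom N M Q hN hcop) = RingHom.id _ := by
    apply ringHom_ext_FBar (L := Qb) N
    · intro a
      simp only [RingHom.comp_apply, RingHom.id_apply]
      rw [wQRingHom_algebraMap, wQRingHom_algebraMap]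
    · intro d' _ hd'
      simp only [RingHom.comp_apply, RingHom.id_apply]
      obtain ⟨d, a, b, _, _, _, hdM, hQ, hda, hdb, e⟩ := exists_jd_factor N M Q hN d' hd'
      have e' : jdBar (L := Qb) N d' hd' = jd N (d * a) hda := e
      rw [e', wQRingHom_jd N M Q hN hcop d a b hdM hQ hda hdb,
        wQRingHom_jd N M Q hN hcop d b a hdM (by rw [hQ, mul_comm]) hdb hda]
  exact congrArg (fun φ : FBar N →+* FBar N => φ f) h

/-- the Atkin–Lehner operator as an algebra homomorphism -/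
def wQAlgHom : FBar N →ₐ[Qb] FBar N :=
  { wQRingHom N M Q hN hcop with commutes' := wQRingHom_algebraMap N M Q hN hcop }

/-- **the Atkin–Lehner involution `w_Q` of `Q̄(X₀(N))`, `Q ∥ N`** -/
def wQ : FBar N ≃ₐ[Qb] FBar N :=
  AlgEquiv.ofAlgHom (wQAlgHom N M Q hN hcop) (wQAlgHom N M Q hN hcop)
    (AlgHom.ext (wQRingHom_wQRingHom N M Q hN hcop))
    (AlgHom.ext (wQRingHom_wQRingHom N M Q hN hcop))

theorem wQ_apply (f : FBar N) : wQ N M Q hN hcop f = wQRingHom N M Q hN hcop f := rfl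

theorem wQ_wQ (f : FBar N) : wQ N M Q hN hcop (wQ N M Q hN hcop f) = f :=
  wQRingHom_wQRingHom N M Q hN hcop f

theorem wQ_symm : (wQ N M Q hN hcop).symm = wQ N M Q hN hcop := by
  refine AlgEquiv.ext fun f => ?_
  apply (wQ N M Q hN hcop).injective
  rw [AlgEquiv.apply_symm_apply, wQ_wQ]

/-- **`w_Q (j(t^(d a))) = j(t^(d b))`**, `d ∣ M`, `a b = Q` -/
theorem wQ_jd (d a b : ℕ) [NeZero d] [NeZero a] [NeZero b] (hd : d ∣ M) (hQ : Q = a * b)
    (hda : d * a ∣ N) (hdb : d * b ∣ N) :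
    wQ N M Q hN hcop (jd N (d * a) hda) = jd N (d * b) hdb :=
  wQRingHom_jd N M Q hN hcop d a b hd hQ hda hdb

/-! ### `w_Q` is defined over `ℚ` -/

/-- **`w_Q` commutes with the coefficientwise action of `Gal(Q̄/ℚ)`** -/
theorem wQ_arithmeticRingAut (σ : Qb ≃ₐ[ℚ] Qb) (f : FBar N) :
    wQ N M Q hN hcop (arithmeticRingAut (modularFunctionFieldFull N) σ f) =
      arithmeticRingAut (modularFunctionFieldFull N) σ (wQ N M Q hN hcop f) := by
  have h : ((wQ N M Q hN hcop : FBar N →+* FBar N)).comp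
      ((arithmeticRingAut (modularFunctionFieldFull N) σ : FBar N ≃+* FBar N) :
        FBar N →+* FBar N) =
      ((arithmeticRingAut (modularFunctionFieldFull N) σ : FBar N ≃+* FBar N) :
        FBar N →+* FBar N).comp ((wQ N M Q hN hcop : FBar N →+* FBar N)) := by
    apply ringHom_ext_FBar (L := Qb) N
    · intro a
      simp only [RingHom.comp_apply, RingHom.coe_coe, AlgEquiv.commutes]
      rw [arithmeticRingAut_algebraMap, AlgEquiv.commutes]
    · intro d' _ hd'
      simp only [RingHom.comp_apply, RingHom.coe_coe]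
      obtain ⟨d, a, b, _, _, _, hdM, hQ, hda, hdb, e⟩ := exists_jd_factor N M Q hN d' hd'
      have e' : jdBar (L := Qb) N d' hd' = jd N (d * a) hda := e
      rw [e', arithmeticRingAut_jd, wQ_jd N M Q hN hcop d a b hdM hQ hda hdb,
        arithmeticRingAut_jd]
  exact congrArg (fun φ : FBar N →+* FBar N => φ f) h

/-- coefficientwise form -/
theorem coe_wQ_coeffMap (σ : Qb ≃ₐ[ℚ] Qb) (f : FBar N)
    (hf : coeffMap (σ : Qb →+* Qb) (f : LaurentSeries Qb) ∈ modularFunctionFieldBar N) :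
    ((wQ N M Q hN hcop ⟨_, hf⟩ : FBar N) : LaurentSeries Qb) =
      coeffMap (σ : Qb →+* Qb) ((wQ N M Q hN hcop f : FBar N) : LaurentSeries Qb) :=
  congrArg Subtype.val (wQ_arithmeticRingAut N M Q hN hcop σ f)

end Fermat.Agent.S36lib.AL
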