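/-
S36lib / AL / WQDeg  (helper1)

The Atkin–Lehner involution `w_{q²}` of `FBar (M q q)` (`q` prime, `q ∤ M`) and the two degeneracy
maps `α, β : FBar (M q) → FBar (M q q)`:

  `w_{q²} ∘ α = β ∘ w_q`,   `w_{q²} ∘ β = α ∘ w_q`        (`w_q` helper9's involution of level `M q`),

together with the explicit action on the generators:
`j(t^d) ↦ j(t^(d q q))`, `j(t^(d q)) ↦ j(t^(d q))`, `j(t^(d q q)) ↦ j(t^d)` (`d ∣ M`).
-/
import Mathlib
import Fermat.Agent.S36lib.AL.WQ

set_option autoImplicit false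
set_option linter.unusedSectionVars false
set_option linter.style.haveILetI false

noncomputable section

namespace Fermat.Agent.S36lib.AL

open ModularCurve Fermat.Agent.S18lib
open Fermat.Agent.ProgramR Fermat.Agent.ProgramR.BarField
open Fermat.Agent.LSb.Val

local notation "Qb" => AlgebraicClosure ℚ

theorem jd_congr {N d d' : ℕ} [NeZero d] [NeZero d'] (h : d = d') (hd : d ∣ N) (hd' : d' ∣ N) :
    jd N d hd = jd N d' hd' := by
  subst h
  rfl

variable (M q : ℕ) [NeZero M] [NeZero q] (hq : q.Prime) (hqM : ¬ q ∣ M)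

include hq hqM in
theorem coprime_sq : Nat.Coprime M (q * q) := by
  have h : Nat.Coprime q M := (Nat.Prime.coprime_iff_not_dvd hq).mpr hqM
  exact (Nat.Coprime.mul_left h h).symm

/-- **the Atkin–Lehner involution `w_{q²}` of `Q̄(X₀(M q²))`** -/
def wqq : FBar (M * q * q) ≃ₐ[Qb] FBar (M * q * q) :=
  wQ (M * q * q) M (q * q) (Nat.mul_assoc M q q) (coprime_sq M q hq hqM)

theorem wqq_wqq (f : FBar (M * q * q)) : wqq M q hq hqM (wqq M q hq hqM f) = f :=
  wQ_wQ _ _ _ _ _ f

/-- `w_{q²} (j(t^d)) = j(t^(d q q))` -/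
theorem wqq_jd (d : ℕ) [NeZero d] (hd : d ∣ M) :
    wqq M q hq hqM (jd (M * q * q) d ((hd.trans (Dvd.intro _ rfl)).trans (Dvd.intro _ rfl))) =
      jd (M * q * q) (d * q * q) (Nat.mul_dvd_mul_right (Nat.mul_dvd_mul_right hd q) q) := by
  have hda : d * 1 ∣ M * q * q := by
    rw [mul_one]; exact (hd.trans (Dvd.intro _ rfl)).trans (Dvd.intro _ rfl)
  have hdb : d * (q * q) ∣ M * q * q := by
    rw [← Nat.mul_assoc]; exact Nat.mul_dvd_mul_right (Nat.mul_dvd_mul_right hd q) q
  have h1 := wQ_jd (M * q * q) M (q * q) (Nat.mul_assoc M q q) (coprime_sq M q hq hqM)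
    d 1 (q * q) hd (one_mul _).symm hda hdb
  rw [jd_congr (mul_one d) hda ((hd.trans (Dvd.intro _ rfl)).trans (Dvd.intro _ rfl)),
    jd_congr (Nat.mul_assoc d q q).symm hdb
      (Nat.mul_dvd_mul_right (Nat.mul_dvd_mul_right hd q) q)] at h1
  exact h1

/-- `w_{q²} (j(t^(d q))) = j(t^(d q))` -/
theorem wqq_jd_mul (d : ℕ) [NeZero d] (hd : d ∣ M) :
    wqq M q hq hqM (jd (M * q * q) (d * q) ((Nat.mul_dvd_mul_right hd q).trans (Dvd.intro _ rfl))) =
      jd (M * q * q) (d * q) ((Nat.mul_dvd_mul_right hd q).trans (Dvd.intro _ rfl)) :=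
  wQ_jd (M * q * q) M (q * q) (Nat.mul_assoc M q q) (coprime_sq M q hq hqM)
    d q q hd rfl _ _

/-- `w_{q²} (j(t^(d q q))) = j(t^d)` -/
theorem wqq_jd_mul_mul (d : ℕ) [NeZero d] (hd : d ∣ M) :
    wqq M q hq hqM (jd (M * q * q) (d * q * q)
        (Nat.mul_dvd_mul_right (Nat.mul_dvd_mul_right hd q) q)) =
      jd (M * q * q) d ((hd.trans (Dvd.intro _ rfl)).trans (Dvd.intro _ rfl)) := by
  rw [← wqq_jd M q hq hqM d hd, wqq_wqq]

/-- **`w_{q²} ∘ α = β ∘ w_q`** -/
theorem wqq_alpha (f : FBar (M * q)) :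
    wqq M q hq hqM (heckeAlphaBar Qb (M * q) q f) =
      heckeBetaBar Qb (M * q) q (wq M q hq hqM f) := by
  have h : ((wqq M q hq hqM : FBar (M * q * q) →+* FBar (M * q * q))).comp
      (heckeAlphaBar Qb (M * q) q : FBar (M * q) →+* FBar (M * q * q)) =
        (heckeBetaBar Qb (M * q) q : FBar (M * q) →+* FBar (M * q * q)).comp
          (wq M q hq hqM : FBar (M * q) →+* FBar (M * q)) := by
    apply ringHom_ext_FBar (L := Qb) (M * q)
    · intro a
      simp only [RingHom.comp_apply, RingHom.coe_coe, AlgHom.commutes, AlgEquiv.commutes]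
    · intro d' _ hd'
      simp only [RingHom.comp_apply, RingHom.coe_coe]
      rcases dvd_mul_prime_cases hq hd' with hdM | ⟨d, rfl, hdM⟩
      · have e1 := alpha_jd (M * q) q d' hd'
        have e2 := wqq_jd M q hq hqM d' hdM
        have e3 := wq_jd M q hq hqM d' hdM
        have e4 := beta_jd (M * q) q (d' * q) (Nat.mul_dvd_mul_right hdM q)
        exact (congrArg _ e1).trans (e2.trans ((congrArg _ e3).trans e4).symm)
      · haveI : NeZero d := ⟨fun h0 => by
          subst h0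
          exact (NeZero.ne (0 * q)) (zero_mul q)⟩
        have e1 := alpha_jd (M * q) q (d * q) hd'
        have e2 := wqq_jd_mul M q hq hqM d hdM
        have e3 := wq_jd_mul M q hq hqM d hdM
        have e4 := beta_jd (M * q) q d (hdM.trans (Dvd.intro _ rfl))
        exact (congrArg _ e1).trans (e2.trans ((congrArg _ e3).trans e4).symm)
  exact congrArg (fun φ : FBar (M * q) →+* FBar (M * q * q) => φ f) h

/-- **`w_{q²} ∘ β = α ∘ w_q`** -/
theorem wqq_beta (f : FBar (M * q)) :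
    wqq M q hq hqM (heckeBetaBar Qb (M * q) q f) =
      heckeAlphaBar Qb (M * q) q (wq M q hq hqM f) := by
  have h := wqq_alpha M q hq hqM (wq M q hq hqM f)
  rw [wq_wq] at h
  rw [← h, wqq_wqq]

/-- `w_{q²}` commutes with the coefficientwise action of `Gal(Q̄/ℚ)` -/
theorem wqq_arithmeticRingAut (σ : Qb ≃ₐ[ℚ] Qb) (f : FBar (M * q * q)) :
    wqq M q hq hqM (arithmeticRingAut (modularFunctionFieldFull (M * q * q)) σ f) =
      arithmeticRingAut (modularFunctionFieldFull (M * q * q)) σ (wqq M q hq hqM f) :=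
  wQ_arithmeticRingAut _ _ _ _ _ σ f

end Fermat.Agent.S36lib.AL
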