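/-
S36lib / AL / WQMer  (helper1)

The Atkin–Lehner matrix `W = [[Q x, y], [M Q, Q]]` (`Q x - M y = 1`; helper9's `LSb.Val.alW`, which
never used the primality of `Q`) and the functions `j(d a ·)`, `d ∣ M`, `a b = Q`:

  `j(d a · W z) = j(d b · z)`.

(`(a, b) = (1, Q), (Q, 1)` are helper9's `jScaledFun_alW`, `jScaledFun_mul_alW`; for `Q = q²` the new
case is `(q, q)`.)
-/
import Mathlib
import Fermat.Agent.LSb.Val.WqMer

set_option autoImplicit false
set_option linter.unusedSectionVars false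

noncomputable section

namespace Fermat.Agent.S36lib.AL

open UpperHalfPlane CongruenceSubgroup
open Fermat.Agent.ProgramR Fermat.Agent.ProgramR.BarField Fermat.Agent.ProgramR.LevelOne
open Fermat.Agent.LSb.Val
open scoped MatrixGroups

/-- the `SL(2, ℤ)` matrix `[[a x, d y], [e, b]]`, `M = d e`, `Q = a b` -/
def alGamma (M Q : ℕ) (x y : ℤ) (h : (Q : ℤ) * x - (M : ℤ) * y = 1) (d e a b : ℕ)
    (hM : M = d * e) (hQ : Q = a * b) : SL(2, ℤ) :=
  ⟨!![(a : ℤ) * x, (d : ℤ) * y; (e : ℤ), (b : ℤ)], by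
    rw [Matrix.det_fin_two_of]
    subst hM hQ
    push_cast at h
    linear_combination h⟩

theorem scaleH_mul_alW_smul' (M Q : ℕ) [NeZero Q] (x y : ℤ) (h : (Q : ℤ) * x - (M : ℤ) * y = 1)
    (d e a b : ℕ) [NeZero d] [NeZero a] [NeZero b] (hM : M = d * e) (hQ : Q = a * b) (z : ℍ) :
    scaleH (d * a) (alW M Q x y h • z) = alGamma M Q x y h d e a b hM hQ • scaleH (d * b) z := by
  apply UpperHalfPlane.ext
  rw [coe_scaleH, coe_alW_smul, coe_specialLinearGroup_apply, coe_scaleH]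
  have ha : (a : ℂ) ≠ 0 := Nat.cast_ne_zero.mpr (NeZero.ne a)
  have hb : (b : ℂ) ≠ 0 := Nat.cast_ne_zero.mpr (NeZero.ne b)
  have h1 := alW_denom_ne_zero M Q z
  have hden : (e : ℂ) * ((d : ℂ) * (b : ℂ) * (z : ℂ)) + (b : ℂ) ≠ 0 := by
    intro h0
    apply h1
    have : (M : ℂ) * Q * z + Q = a * ((e : ℂ) * ((d : ℂ) * (b : ℂ) * (z : ℂ)) + (b : ℂ)) := by
      subst hM hQ
      push_cast
      ring
    rw [this, h0, mul_zero]
  simp only [alGamma, Matrix.of_apply, Matrix.cons_val', Matrix.cons_val_zero,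
      Matrix.cons_val_one, Matrix.cons_val_fin_one, algebraMap_int_eq, eq_intCast,
      Complex.ofReal_intCast]
  push_cast
  rw [show (M : ℂ) * Q * z + Q = a * ((e : ℂ) * ((d : ℂ) * (b : ℂ) * (z : ℂ)) + (b : ℂ)) by
    subst hM hQ; push_cast; ring]
  rw [show (Q : ℂ) = a * b by subst hQ; push_cast; ring]
  field_simp

/-- **`j(d a · W z) = j(d b · z)`** for `d ∣ M`, `a b = Q` -/
theorem jScaledFun_mul_alW' (M Q : ℕ) [NeZero Q] (x y : ℤ) (h : (Q : ℤ) * x - (M : ℤ) * y = 1)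
    (d a b : ℕ) [NeZero d] [NeZero a] [NeZero b] (hd : d ∣ M) (hQ : Q = a * b) (z : ℍ) :
    jScaledFun (d * a) (alW M Q x y h • z) = jScaledFun (d * b) z := by
  obtain ⟨e, hM⟩ := hd
  rw [jScaledFun, jScaledFun, Function.comp_apply, Function.comp_apply,
    scaleH_mul_alW_smul' M Q x y h d e a b hM hQ, jInv_smul]

end Fermat.Agent.S36lib.AL
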